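/-
helper63: a period lattice is determined by its invariants g₂, g₃.
(Uniqueness of the solution `y = z⁻² + O(z²)` of `y'² = 4y³ - g₂ y - g₃`.)
-/
import Mathlib

set_option autoImplicit false

open Filter Topology
open scoped PeriodPair

namespace Fermat.Agent.LevelOne_helper63

namespace PeriodPairAux

variable (L L' : PeriodPair)

/-- `℘ = ℘[L - 0] + z⁻²` (true everywhere thanks to junk values). -/
lemma weierstrassP_eq_except_add (z : ℂ) :
    ℘[L] z = ℘[L - (0 : ℂ)] z + 1 / z ^ 2 := by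
  have h := L.weierstrassPExcept_def (0 : L.lattice) z
  simp only [ZeroMemClass.coe_zero, sub_zero] at h
  rw [h]
  simp

lemma derivWeierstrassP_eq_except_sub (z : ℂ) :
    ℘'[L] z = ℘'[L - (0 : ℂ)] z - 2 / z ^ 3 := by
  have h := L.derivWeierstrassPExcept_def (0 : L.lattice) z
  simp only [ZeroMemClass.coe_zero, sub_zero] at h
  rw [h]
  ring

/-- The difference of the two differential equations, cleared of denominators. -/
lemma key_identity (hg2 : L.g₂ = L'.g₂) (hg3 : L.g₃ = L'.g₃) :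
    ∀ᶠ z in 𝓝 (0 : ℂ),
      z * (℘'[L - (0 : ℂ)] z - ℘'[L' - (0 : ℂ)] z) *
          (z ^ 3 * (℘'[L - (0 : ℂ)] z + ℘'[L' - (0 : ℂ)] z) - 4) =
        (℘[L - (0 : ℂ)] z - ℘[L' - (0 : ℂ)] z) *
          (4 * ((z ^ 2 * ℘[L - (0 : ℂ)] z + 1) ^ 2 +
              (z ^ 2 * ℘[L - (0 : ℂ)] z + 1) * (z ^ 2 * ℘[L' - (0 : ℂ)] z + 1) +
              (z ^ 2 * ℘[L' - (0 : ℂ)] z + 1) ^ 2) - L.g₂ * z ^ 4) := by
  filter_upwards [L.compl_lattice_sdiff_singleton_mem_nhds 0,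
    L'.compl_lattice_sdiff_singleton_mem_nhds 0] with z hz hz'
  by_cases hz0 : z = 0
  · subst hz0
    simp
  have hzL : z ∉ L.lattice := by
    intro h
    exact hz ⟨h, hz0⟩
  have hzL' : z ∉ L'.lattice := by
    intro h
    exact hz' ⟨h, hz0⟩
  have e1 := L.derivWeierstrassP_sq z hzL
  have e2 := L'.derivWeierstrassP_sq z hzL'
  rw [weierstrassP_eq_except_add, derivWeierstrassP_eq_except_sub] at e1 e2
  rw [← hg2, ← hg3] at e2
  generalize ℘[L - (0 : ℂ)] z = a at *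
  generalize ℘[L' - (0 : ℂ)] z = b at *
  generalize ℘'[L - (0 : ℂ)] z = c at *
  generalize ℘'[L' - (0 : ℂ)] z = d at *
  have h4 : z ^ 4 ≠ 0 := pow_ne_zero _ hz0
  have key : z ^ 4 * ((c - 2 / z ^ 3) ^ 2 - (d - 2 / z ^ 3) ^ 2) =
      z ^ 4 * ((4 * (a + 1 / z ^ 2) ^ 3 - L.g₂ * (a + 1 / z ^ 2) - L.g₃) -
        (4 * (b + 1 / z ^ 2) ^ 3 - L.g₂ * (b + 1 / z ^ 2) - L.g₃)) := by
    rw [e1, e2]
  have l1 : z ^ 4 * ((c - 2 / z ^ 3) ^ 2 - (d - 2 / z ^ 3) ^ 2) =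
      z * (c - d) * (z ^ 3 * (c + d) - 4) := by
    field_simp
    ring
  have l2 : z ^ 4 * ((4 * (a + 1 / z ^ 2) ^ 3 - L.g₂ * (a + 1 / z ^ 2) - L.g₃) -
        (4 * (b + 1 / z ^ 2) ^ 3 - L.g₂ * (b + 1 / z ^ 2) - L.g₃)) =
      (a - b) * (4 * ((z ^ 2 * a + 1) ^ 2 + (z ^ 2 * a + 1) * (z ^ 2 * b + 1) +
        (z ^ 2 * b + 1) ^ 2) - L.g₂ * z ^ 4) := by
    field_simp
    ring
  rw [← l1, ← l2, key]

/-- Two period pairs with the same `g₂`, `g₃` have the same regular part of `℘` near `0`. -/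
theorem eventually_except_eq (hg2 : L.g₂ = L'.g₂) (hg3 : L.g₃ = L'.g₃) :
    ∀ᶠ z in 𝓝 (0 : ℂ), ℘[L - (0 : ℂ)] z = ℘[L' - (0 : ℂ)] z := by
  have hf : AnalyticAt ℂ ℘[L - (0 : ℂ)] 0 := L.analyticAt_weierstrassPExcept 0
  have hf' : AnalyticAt ℂ ℘[L' - (0 : ℂ)] 0 := L'.analyticAt_weierstrassPExcept 0
  have hh : AnalyticAt ℂ ℘'[L - (0 : ℂ)] 0 := L.analyticAt_derivWeierstrassPExcept 0
  have hh' : AnalyticAt ℂ ℘'[L' - (0 : ℂ)] 0 := L'.analyticAt_derivWeierstrassPExcept 0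
  have hδ : AnalyticAt ℂ (fun z ↦ ℘[L - (0 : ℂ)] z - ℘[L' - (0 : ℂ)] z) 0 := hf.sub hf'
  by_contra hne
  have hne' : ¬ ∀ᶠ z in 𝓝 (0 : ℂ), (fun z ↦ ℘[L - (0 : ℂ)] z - ℘[L' - (0 : ℂ)] z) z = 0 := by
    intro h
    apply hne
    filter_upwards [h] with z hz
    exact sub_eq_zero.mp hz
  obtain ⟨n, e, he, he0, heq⟩ := hδ.exists_eventuallyEq_pow_smul_nonzero_iff.mpr hne'
  simp only [sub_zero, smul_eq_mul] at heq
  -- the derivative of the difference, computed in two ways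
  have hd1 : ∀ᶠ z in 𝓝 (0 : ℂ), deriv (fun z ↦ ℘[L - (0 : ℂ)] z - ℘[L' - (0 : ℂ)] z) z =
      ℘'[L - (0 : ℂ)] z - ℘'[L' - (0 : ℂ)] z := by
    filter_upwards [L.compl_lattice_sdiff_singleton_mem_nhds 0,
      L'.compl_lattice_sdiff_singleton_mem_nhds 0] with z hz hz'
    have d1 : DifferentiableAt ℂ ℘[L - (0 : ℂ)] z :=
      (L.differentiableOn_weierstrassPExcept 0).differentiableAt
        (L.isOpen_compl_lattice_sdiff.mem_nhds hz)
    have d2 : DifferentiableAt ℂ ℘[L' - (0 : ℂ)] z :=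
      (L'.differentiableOn_weierstrassPExcept 0).differentiableAt
        (L'.isOpen_compl_lattice_sdiff.mem_nhds hz')
    rw [deriv_fun_sub d1 d2, L.eqOn_deriv_weierstrassPExcept_derivWeierstrassPExcept 0 hz,
      L'.eqOn_deriv_weierstrassPExcept_derivWeierstrassPExcept 0 hz']
  have hd2 : ∀ᶠ z in 𝓝 (0 : ℂ), deriv (fun z ↦ ℘[L - (0 : ℂ)] z - ℘[L' - (0 : ℂ)] z) z =
      (n : ℂ) * z ^ (n - 1) * e z + z ^ n * deriv e z := by
    have h1 : ∀ᶠ z in 𝓝 (0 : ℂ), deriv (fun z ↦ ℘[L - (0 : ℂ)] z - ℘[L' - (0 : ℂ)] z) z =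
        deriv (fun z ↦ z ^ n * e z) z := by
      have : (fun z ↦ ℘[L - (0 : ℂ)] z - ℘[L' - (0 : ℂ)] z) =ᶠ[𝓝 0] fun z ↦ z ^ n * e z := heq
      exact this.deriv
    filter_upwards [h1, he.eventually_analyticAt] with z hz hez
    rw [hz, deriv_fun_mul (by fun_prop) hez.differentiableAt]
    simp
  -- combine with the key identity
  have hkey := key_identity L L' hg2 hg3
  have hmain : ∀ᶠ z in 𝓝[≠] (0 : ℂ),
      ((n : ℂ) * e z + z * deriv e z) *
          (z ^ 3 * (℘'[L - (0 : ℂ)] z + ℘'[L' - (0 : ℂ)] z) - 4) =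
        e z * (4 * ((z ^ 2 * ℘[L - (0 : ℂ)] z + 1) ^ 2 +
              (z ^ 2 * ℘[L - (0 : ℂ)] z + 1) * (z ^ 2 * ℘[L' - (0 : ℂ)] z + 1) +
              (z ^ 2 * ℘[L' - (0 : ℂ)] z + 1) ^ 2) - L.g₂ * z ^ 4) := by
    have hall : ∀ᶠ z in 𝓝 (0 : ℂ), z ≠ 0 →
        ((n : ℂ) * e z + z * deriv e z) *
          (z ^ 3 * (℘'[L - (0 : ℂ)] z + ℘'[L' - (0 : ℂ)] z) - 4) =
        e z * (4 * ((z ^ 2 * ℘[L - (0 : ℂ)] z + 1) ^ 2 +
              (z ^ 2 * ℘[L - (0 : ℂ)] z + 1) * (z ^ 2 * ℘[L' - (0 : ℂ)] z + 1) +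
              (z ^ 2 * ℘[L' - (0 : ℂ)] z + 1) ^ 2) - L.g₂ * z ^ 4) := by
      filter_upwards [hkey, hd1, hd2, heq] with z hk h1 h2 h3 hz0
      rw [← h1, h2, h3] at hk
      have hzn : z ^ n ≠ 0 := pow_ne_zero _ hz0
      have hzz : z * ((n : ℂ) * z ^ (n - 1)) = (n : ℂ) * z ^ n := by
        rcases n with _ | m
        · simp
        · simp [pow_succ]; ring
      apply mul_left_cancel₀ hzn
      linear_combination hk - e z * (z ^ 3 * (℘'[L - (0 : ℂ)] z + ℘'[L' - (0 : ℂ)] z) - 4) * hzz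
    exact eventually_nhdsWithin_iff.mpr (hall.mono fun z hz hz0 ↦ hz hz0)
  -- pass to the limit `z → 0`
  have hde : AnalyticAt ℂ (deriv e) 0 := he.deriv
  have hF : ContinuousAt (fun z : ℂ ↦ ((n : ℂ) * e z + z * deriv e z) *
          (z ^ 3 * (℘'[L - (0 : ℂ)] z + ℘'[L' - (0 : ℂ)] z) - 4)) 0 := by
    have := he.continuousAt
    have := hde.continuousAt
    have := hh.continuousAt
    have := hh'.continuousAt
    fun_prop
  have hG : ContinuousAt (fun z : ℂ ↦ e z * (4 * ((z ^ 2 * ℘[L - (0 : ℂ)] z + 1) ^ 2 +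
              (z ^ 2 * ℘[L - (0 : ℂ)] z + 1) * (z ^ 2 * ℘[L' - (0 : ℂ)] z + 1) +
              (z ^ 2 * ℘[L' - (0 : ℂ)] z + 1) ^ 2) - L.g₂ * z ^ 4)) 0 := by
    have := he.continuousAt
    have := hf.continuousAt
    have := hf'.continuousAt
    fun_prop
  have hlim := tendsto_nhds_unique_of_eventuallyEq
    (hF.tendsto.mono_left nhdsWithin_le_nhds) (hG.tendsto.mono_left nhdsWithin_le_nhds) hmain
  simp only [ne_eq, OfNat.ofNat_ne_zero, not_false_eq_true, zero_pow, zero_mul, add_zero, zero_sub,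
    zero_add, one_pow, mul_one, mul_zero, sub_zero] at hlim
  have h3 : ((n : ℂ) * 4 + 12) * e 0 = 0 := by linear_combination -hlim
  rcases mul_eq_zero.mp h3 with h | h
  · have : ((n * 4 + 12 : ℕ) : ℂ) = 0 := by push_cast; exact h
    have := Nat.cast_eq_zero.mp this
    omega
  · exact he0 h

/-- `℘[L]` and `℘[L']` agree near every point (away from the point itself). -/
theorem eventually_weierstrassP_eq (hg2 : L.g₂ = L'.g₂) (hg3 : L.g₃ = L'.g₃) (x : ℂ) :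
    ∀ᶠ z in 𝓝[≠] x, ℘[L] z = ℘[L'] z := by
  have hmero : MeromorphicOn (fun z ↦ ℘[L] z - ℘[L'] z) Set.univ := fun z _ ↦
    (L.meromorphic_weierstrassP z).sub (L'.meromorphic_weierstrassP z)
  have h0 : meromorphicOrderAt (fun z ↦ ℘[L] z - ℘[L'] z) 0 = ⊤ := by
    rw [meromorphicOrderAt_eq_top_iff]
    refine eventually_nhdsWithin_of_eventually_nhds ?_
    filter_upwards [eventually_except_eq L L' hg2 hg3] with z hz
    rw [weierstrassP_eq_except_add, weierstrassP_eq_except_add, hz]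
    ring
  have hx : meromorphicOrderAt (fun z ↦ ℘[L] z - ℘[L'] z) x = ⊤ := by
    by_contra hx
    exact hmero.meromorphicOrderAt_ne_top_of_isPreconnected isPreconnected_univ
      (Set.mem_univ x) (Set.mem_univ 0) hx h0
  rw [meromorphicOrderAt_eq_top_iff] at hx
  filter_upwards [hx] with z hz
  exact sub_eq_zero.mp hz

theorem lattice_le_of_g₂_g₃ (hg2 : L.g₂ = L'.g₂) (hg3 : L.g₃ = L'.g₃) :
    L.lattice ≤ L'.lattice := by
  intro x hx
  by_contra hx'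
  have h1 : meromorphicOrderAt ℘[L] x = -2 := L.order_weierstrassP x hx
  have h2 : meromorphicOrderAt ℘[L] x = meromorphicOrderAt ℘[L'] x :=
    meromorphicOrderAt_congr (eventually_weierstrassP_eq L L' hg2 hg3 x)
  have h3 : 0 ≤ meromorphicOrderAt ℘[L'] x :=
    (L'.analyticOnNhd_weierstrassP x hx').meromorphicOrderAt_nonneg
  rw [← h2, h1] at h3
  exact absurd h3 (by decide)

end PeriodPairAux

/-- **A period lattice is determined by its invariants `g₂` and `g₃`.** -/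
theorem lattice_eq_of_g₂_g₃ (L L' : PeriodPair) (hg2 : L.g₂ = L'.g₂) (hg3 : L.g₃ = L'.g₃) :
    L.lattice = L'.lattice :=
  le_antisymm (PeriodPairAux.lattice_le_of_g₂_g₃ L L' hg2 hg3)
    (PeriodPairAux.lattice_le_of_g₂_g₃ L' L hg2.symm hg3.symm)

end Fermat.Agent.LevelOne_helper63
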