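/-
helper63: the `j`-invariant is injective on `SL(2,ℤ)\ℍ`.
Bridge between Mathlib's lattice functions (`PeriodPair.G`, `g₂`, `g₃`) and the level-one
Eisenstein series `E₄`, `E₆`, and injectivity via `lattice_eq_of_g₂_g₃`.
-/
import Mathlib
import Fermat.Agent.LevelOne_helper63.LatticeUnique

set_option autoImplicit false

open Filter Topology UpperHalfPlane ModularForm EisensteinSeries
open scoped PeriodPair MatrixGroups

namespace Fermat.Agent.LevelOne_helper63

/-- The period pair `(τ, 1)` attached to a point of the upper half plane. -/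
noncomputable def periodPairOf (τ : ℍ) : PeriodPair where
  ω₁ := τ
  ω₂ := 1
  indep := by
    rw [LinearIndependent.pair_iff]
    intro s t h
    have him := congrArg Complex.im h
    have hre := congrArg Complex.re h
    simp at him hre
    have hs : s = 0 := by
      rcases him with h | h
      · exact h
      · exact absurd h τ.im_ne_zero
    subst hs
    simp at hre
    exact ⟨rfl, hre⟩

@[simp] lemma periodPairOf_ω₁ (τ : ℍ) : (periodPairOf τ).ω₁ = τ := rfl
@[simp] lemma periodPairOf_ω₂ (τ : ℍ) : (periodPairOf τ).ω₂ = 1 := rfl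

lemma G_periodPairOf {k : ℕ} (hk : 3 ≤ k) (τ : ℍ) :
    (periodPairOf τ).G k = 2 * riemannZeta k * E hk τ := by
  have h1 : (periodPairOf τ).G k = ∑' v : Fin 2 → ℤ, eisSummand k v τ := by
    unfold PeriodPair.G
    rw [← (periodPairOf τ).latticeEquivProd.symm.toEquiv.tsum_eq]
    rw [← (finTwoArrowEquiv ℤ).symm.tsum_eq]
    refine tsum_congr fun x ↦ ?_
    simp [eisSummand, PeriodPair.latticeEquiv_symm_apply]
  rw [h1, tsum_eisSummand_eq_riemannZeta_mul_eisensteinSeries hk τ]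
  have : E hk τ = (1 / 2 : ℂ) * eisensteinSeries (N := 1) 0 k τ := by
    rw [show E hk τ = (1 / 2 : ℂ) • eisensteinSeriesSIF (N := 1) 0 k τ from rfl,
      eisensteinSeriesSIF_apply 0 k τ]
    simp
  rw [this]
  ring

/-- Scaling a period pair by a nonzero complex number. -/
noncomputable def scalePair (u : ℂ) (hu : u ≠ 0) (L : PeriodPair) : PeriodPair where
  ω₁ := u * L.ω₁
  ω₂ := u * L.ω₂
  indep := by
    have h := L.indep
    rw [LinearIndependent.pair_iff] at h ⊢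
    intro s t hst
    apply h s t
    have : u * (s • L.ω₁ + t • L.ω₂) = 0 := by
      rw [← hst]
      simp only [Complex.real_smul]
      ring
    exact (mul_eq_zero.mp this).resolve_left hu

lemma mem_lattice_scalePair {u : ℂ} (hu : u ≠ 0) (L : PeriodPair) (x : ℂ) :
    x ∈ (scalePair u hu L).lattice ↔ ∃ y ∈ L.lattice, x = u * y := by
  simp only [PeriodPair.mem_lattice, scalePair]
  constructor
  · rintro ⟨m, n, rfl⟩
    exact ⟨m * L.ω₁ + n * L.ω₂, ⟨m, n, rfl⟩, by ring⟩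
  · rintro ⟨y, ⟨m, n, rfl⟩, rfl⟩
    exact ⟨m, n, by ring⟩

lemma G_scalePair {u : ℂ} (hu : u ≠ 0) (L : PeriodPair) (k : ℕ) :
    (scalePair u hu L).G k = (u ^ k)⁻¹ * L.G k := by
  unfold PeriodPair.G
  rw [← (scalePair u hu L).latticeEquivProd.symm.toEquiv.tsum_eq,
    ← L.latticeEquivProd.symm.toEquiv.tsum_eq, ← tsum_mul_left]
  refine tsum_congr fun x ↦ ?_
  have h1 : (((scalePair u hu L).latticeEquivProd.symm.toEquiv x : (scalePair u hu L).lattice) : ℂ)
      = x.1 * (u * L.ω₁) + x.2 * (u * L.ω₂) :=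
    (scalePair u hu L).latticeEquiv_symm_apply x
  have h2 : ((L.latticeEquivProd.symm.toEquiv x : L.lattice) : ℂ) = x.1 * L.ω₁ + x.2 * L.ω₂ :=
    L.latticeEquiv_symm_apply x
  rw [h1, h2, ← mul_inv, ← mul_pow]
  congr 2
  ring

/-- `1` and `τ` are linearly independent over `ℤ` (indeed over `ℝ`). -/
lemma int_combo_eq_zero (τ : ℍ) {m n : ℤ} (h : (m : ℂ) * τ + n = 0) : m = 0 ∧ n = 0 := by
  have him := congrArg Complex.im h
  have hre := congrArg Complex.re h
  simp at him hre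
  have hm : m = 0 := by
    rcases him with h | h
    · exact h
    · exact absurd h τ.im_ne_zero
  subst hm
  simp at hre
  exact ⟨rfl, hre⟩

lemma int_combo_eq (τ : ℍ) {m n m' n' : ℤ} (h : (m : ℂ) * τ + n = m' * τ + n') :
    m = m' ∧ n = n' := by
  have : ((m - m' : ℤ) : ℂ) * τ + ((n - n' : ℤ) : ℂ) = 0 := by
    push_cast
    linear_combination h
  obtain ⟨h1, h2⟩ := int_combo_eq_zero τ this
  exact ⟨by omega, by omega⟩

/-- If `ℤτ' + ℤ = v (ℤτ + ℤ)` then `τ'` is in the `SL(2,ℤ)`-orbit of `τ`. -/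
lemma exists_SL2Z_smul_eq (τ τ' : ℍ) (v : ℂ)
    (h1 : ∃ a b : ℤ, (τ' : ℂ) = v * (a * τ + b))
    (h2 : ∃ c d : ℤ, (1 : ℂ) = v * (c * τ + d))
    (h3 : ∃ a' b' : ℤ, v * τ = a' * τ' + b')
    (h4 : ∃ c' d' : ℤ, v = c' * τ' + d') :
    ∃ γ : SL(2, ℤ), τ' = γ • τ := by
  obtain ⟨a, b, hab⟩ := h1
  obtain ⟨c, d, hcd⟩ := h2
  obtain ⟨a', b', hab'⟩ := h3
  obtain ⟨c', d', hcd'⟩ := h4
  -- M * M' = 1
  have e1 : ((1 : ℤ) : ℂ) * τ' + ((0 : ℤ) : ℂ) =
      ((a * a' + b * c' : ℤ) : ℂ) * τ' + ((a * b' + b * d' : ℤ) : ℂ) := by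
    push_cast
    linear_combination hab + a * hab' + b * hcd'
  have e2 : ((0 : ℤ) : ℂ) * τ' + ((1 : ℤ) : ℂ) =
      ((c * a' + d * c' : ℤ) : ℂ) * τ' + ((c * b' + d * d' : ℤ) : ℂ) := by
    push_cast
    linear_combination hcd + c * hab' + d * hcd'
  obtain ⟨f1, f2⟩ := int_combo_eq τ' e1
  obtain ⟨f3, f4⟩ := int_combo_eq τ' e2
  have hdet : (a * d - b * c) * (a' * d' - b' * c') = 1 := by
    have : (a * d - b * c) * (a' * d' - b' * c') =
        (a * a' + b * c') * (c * b' + d * d') - (a * b' + b * d') * (c * a' + d * c') := by ring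
    rw [this, ← f1, ← f2, ← f3, ← f4]
    norm_num
  -- the Möbius relation
  have hne : (c : ℂ) * τ + d ≠ 0 := by
    intro h0
    rw [h0, mul_zero] at hcd
    exact one_ne_zero hcd
  have hmoeb : (τ' : ℂ) * (c * τ + d) = a * τ + b := by
    linear_combination (c * τ + d) * hab - (a * τ + b) * hcd
  -- the determinant is positive
  have him : τ'.im * ((c * τ.re + d) ^ 2 + (c * τ.im) ^ 2) = ((a * d - b * c : ℤ) : ℝ) * τ.im := by
    have hre' := congrArg Complex.re hmoeb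
    have him' := congrArg Complex.im hmoeb
    simp at hre' him'
    push_cast
    linear_combination (c * τ.re + d) * him' - (c * τ.im) * hre'
  have hpos : 0 < (c * τ.re + d) ^ 2 + (c * τ.im) ^ 2 := by
    by_contra hle
    have h0 : (c * τ.re + d) ^ 2 + (c * τ.im) ^ 2 = 0 := by
      have := sq_nonneg (c * τ.re + d)
      have := sq_nonneg (c * τ.im)
      linarith
    have h1 : c * τ.re + d = 0 := by nlinarith [sq_nonneg (c * τ.re + d), sq_nonneg (c * τ.im)]
    have h2 : c * τ.im = 0 := by nlinarith [sq_nonneg (c * τ.re + d), sq_nonneg (c * τ.im)]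
    apply hne
    apply Complex.ext <;> simp [h1, h2]
  have hdetpos : 0 < a * d - b * c := by
    have : 0 < ((a * d - b * c : ℤ) : ℝ) * τ.im := by
      rw [← him]
      exact mul_pos τ'.im_pos hpos
    have := (pos_iff_pos_of_mul_pos this).mpr τ.im_pos
    exact_mod_cast this
  have hdet1 : a * d - b * c = 1 := by
    rcases Int.eq_one_or_neg_one_of_mul_eq_one hdet with h | h
    · exact h
    · omega
  let γ : SL(2, ℤ) := ⟨!![a, b; c, d], by rw [Matrix.det_fin_two_of]; exact hdet1⟩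
  refine ⟨γ, ?_⟩
  apply UpperHalfPlane.ext
  rw [UpperHalfPlane.coe_specialLinearGroup_apply]
  simp only [algebraMap_int_eq, Int.coe_castRingHom, Complex.ofReal_intCast]
  have g00 : γ 0 0 = a := rfl
  have g01 : γ 0 1 = b := rfl
  have g10 : γ 1 0 = c := rfl
  have g11 : γ 1 1 = d := rfl
  rw [g00, g01, g10, g11, eq_div_iff hne]
  exact hmoeb

/-- Weighted-projective equality of `(E₄, E₆)`-values. -/
lemma exists_scaling {x y x' y' : ℂ} (h : x ^ 3 - y ^ 2 ≠ 0) (h' : x' ^ 3 - y' ^ 2 ≠ 0)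
    (he : x ^ 3 * y' ^ 2 = x' ^ 3 * y ^ 2) :
    ∃ u : ℂ, u ≠ 0 ∧ x' = u ^ 4 * x ∧ y' = u ^ 6 * y := by
  by_cases hx : x = 0
  · subst hx
    have hy : y ≠ 0 := by
      intro hy; apply h; simp [hy]
    have hx' : x' = 0 := by
      have : x' ^ 3 * y ^ 2 = 0 := by rw [← he]; simp
      rcases mul_eq_zero.mp this with h1 | h1
      · exact pow_eq_zero_iff (by norm_num) |>.mp h1
      · exact absurd (pow_eq_zero_iff (by norm_num) |>.mp h1) hy
    subst hx'
    have hy' : y' ≠ 0 := by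
      intro hy'; apply h'; simp [hy']
    obtain ⟨u, hu⟩ := IsAlgClosed.exists_pow_nat_eq (y' / y) (n := 6) (by norm_num)
    refine ⟨u, ?_, by simp, ?_⟩
    · intro h0
      rw [h0] at hu
      have : y' / y ≠ 0 := div_ne_zero hy' hy
      exact this (by simpa using hu.symm)
    · rw [hu]; field_simp
  by_cases hy : y = 0
  · subst hy
    have hy' : y' = 0 := by
      have : x ^ 3 * y' ^ 2 = 0 := by rw [he]; simp
      rcases mul_eq_zero.mp this with h1 | h1
      · exact absurd (pow_eq_zero_iff (by norm_num) |>.mp h1) hx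
      · exact pow_eq_zero_iff (by norm_num) |>.mp h1
    subst hy'
    have hx' : x' ≠ 0 := by
      intro hx'; apply h'; simp [hx']
    obtain ⟨u, hu⟩ := IsAlgClosed.exists_pow_nat_eq (x' / x) (n := 4) (by norm_num)
    refine ⟨u, ?_, ?_, by simp⟩
    · intro h0
      rw [h0] at hu
      have : x' / x ≠ 0 := div_ne_zero hx' hx
      exact this (by simpa using hu.symm)
    · rw [hu]; field_simp
  have hx' : x' ≠ 0 := by
    intro hx'
    subst hx'
    have : x ^ 3 * y' ^ 2 = 0 := by rw [he]; simp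
    rcases mul_eq_zero.mp this with h1 | h1
    · exact hx (pow_eq_zero_iff (by norm_num) |>.mp h1)
    · apply h'
      have := pow_eq_zero_iff (by norm_num) |>.mp h1
      simp [this]
  have hy' : y' ≠ 0 := by
    intro hy'
    subst hy'
    have : x' ^ 3 * y ^ 2 = 0 := by rw [← he]; simp
    rcases mul_eq_zero.mp this with h1 | h1
    · exact hx' (pow_eq_zero_iff (by norm_num) |>.mp h1)
    · exact hy (pow_eq_zero_iff (by norm_num) |>.mp h1)
  obtain ⟨u, hu⟩ := IsAlgClosed.exists_pow_nat_eq (y' * x / (y * x')) (n := 2) (by norm_num)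
  have hu4 : u ^ 4 = x' / x := by
    have : u ^ 4 = (u ^ 2) ^ 2 := by ring
    rw [this, hu]
    field_simp
    linear_combination he
  refine ⟨u, ?_, ?_, ?_⟩
  · intro h0
    rw [h0] at hu
    have : y' * x / (y * x') ≠ 0 := div_ne_zero (mul_ne_zero hy' hx) (mul_ne_zero hy hx')
    exact this (by simpa using hu.symm)
  · rw [hu4]; field_simp
  · have : u ^ 6 = u ^ 4 * u ^ 2 := by ring
    rw [this, hu4, hu]
    field_simp

lemma riemannZeta_four_ne_zero : riemannZeta 4 ≠ 0 :=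
  riemannZeta_ne_zero_of_one_lt_re (by norm_num)

lemma riemannZeta_six_ne_zero : riemannZeta 6 ≠ 0 :=
  riemannZeta_ne_zero_of_one_lt_re (by norm_num)

lemma g₂_periodPairOf (τ : ℍ) : (periodPairOf τ).g₂ = 120 * riemannZeta 4 * E₄ τ := by
  unfold PeriodPair.g₂
  rw [G_periodPairOf (by norm_num : 3 ≤ 4) τ]
  push_cast
  ring

lemma g₃_periodPairOf (τ : ℍ) : (periodPairOf τ).g₃ = 280 * riemannZeta 6 * E₆ τ := by
  unfold PeriodPair.g₃
  rw [G_periodPairOf (by norm_num : 3 ≤ 6) τ]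
  push_cast
  ring

lemma g₂_scalePair {u : ℂ} (hu : u ≠ 0) (L : PeriodPair) :
    (scalePair u hu L).g₂ = (u ^ 4)⁻¹ * L.g₂ := by
  unfold PeriodPair.g₂
  rw [G_scalePair]
  ring

lemma g₃_scalePair {u : ℂ} (hu : u ≠ 0) (L : PeriodPair) :
    (scalePair u hu L).g₃ = (u ^ 6)⁻¹ * L.g₃ := by
  unfold PeriodPair.g₃
  rw [G_scalePair]
  ring

/-- If `(E₄, E₆)(τ') = (u⁴ E₄, u⁶ E₆)(τ)` for some `u ≠ 0`, then `τ'` is `SL(2,ℤ)`-equivalent
to `τ`. -/
theorem exists_smul_eq_of_E₄_E₆ (τ τ' : ℍ) {u : ℂ} (hu : u ≠ 0)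
    (h4 : E₄ τ' = u ^ 4 * E₄ τ) (h6 : E₆ τ' = u ^ 6 * E₆ τ) :
    ∃ γ : SL(2, ℤ), τ' = γ • τ := by
  have hv : u⁻¹ ≠ 0 := inv_ne_zero hu
  have hlat : (periodPairOf τ').lattice = (scalePair u⁻¹ hv (periodPairOf τ)).lattice := by
    apply lattice_eq_of_g₂_g₃
    · rw [g₂_scalePair, g₂_periodPairOf, g₂_periodPairOf, h4]
      field_simp
    · rw [g₃_scalePair, g₃_periodPairOf, g₃_periodPairOf, h6]
      field_simp
  apply exists_SL2Z_smul_eq τ τ' u⁻¹
  · have h1 : (τ' : ℂ) ∈ (periodPairOf τ').lattice := (periodPairOf τ').ω₁_mem_lattice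
    rw [hlat, mem_lattice_scalePair] at h1
    obtain ⟨y, hy, hτ'⟩ := h1
    obtain ⟨m, n, rfl⟩ := PeriodPair.mem_lattice.mp hy
    exact ⟨m, n, by rw [hτ']; simp⟩
  · have h1 : (1 : ℂ) ∈ (periodPairOf τ').lattice := (periodPairOf τ').ω₂_mem_lattice
    rw [hlat, mem_lattice_scalePair] at h1
    obtain ⟨y, hy, hτ'⟩ := h1
    obtain ⟨m, n, rfl⟩ := PeriodPair.mem_lattice.mp hy
    exact ⟨m, n, by rw [hτ']; simp⟩
  · have h1 : u⁻¹ * (τ : ℂ) ∈ (scalePair u⁻¹ hv (periodPairOf τ)).lattice :=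
      (scalePair u⁻¹ hv (periodPairOf τ)).ω₁_mem_lattice
    rw [← hlat] at h1
    obtain ⟨m, n, h⟩ := PeriodPair.mem_lattice.mp h1
    exact ⟨m, n, by rw [← h]; simp⟩
  · have h1 : u⁻¹ * (1 : ℂ) ∈ (scalePair u⁻¹ hv (periodPairOf τ)).lattice :=
      (scalePair u⁻¹ hv (periodPairOf τ)).ω₂_mem_lattice
    rw [← hlat] at h1
    obtain ⟨m, n, h⟩ := PeriodPair.mem_lattice.mp h1
    exact ⟨m, n, by rw [mul_one] at h; rw [← h]; simp⟩

/-- **Injectivity of the `j`-invariant** on `SL(2,ℤ)\ℍ`, stated without division: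
`j = E₄³/Δ`. -/
theorem exists_smul_eq_of_j_eq (τ τ' : ℍ)
    (h : E₄ τ ^ 3 * discriminant τ' = E₄ τ' ^ 3 * discriminant τ) :
    ∃ γ : SL(2, ℤ), τ' = γ • τ := by
  have hΔ := discriminant_ne_zero τ
  have hΔ' := discriminant_ne_zero τ'
  rw [discriminant_eq_E₄_cube_sub_E₆_sq] at hΔ hΔ' h
  rw [discriminant_eq_E₄_cube_sub_E₆_sq] at h
  have h1 : E₄ τ ^ 3 - E₆ τ ^ 2 ≠ 0 := by
    intro h0; apply hΔ; rw [h0]; simp
  have h1' : E₄ τ' ^ 3 - E₆ τ' ^ 2 ≠ 0 := by
    intro h0; apply hΔ'; rw [h0]; simp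
  have he : E₄ τ ^ 3 * E₆ τ' ^ 2 = E₄ τ' ^ 3 * E₆ τ ^ 2 := by
    field_simp at h
    linear_combination -h
  obtain ⟨u, hu, h4, h6⟩ := exists_scaling h1 h1' he
  exact exists_smul_eq_of_E₄_E₆ τ τ' hu h4 h6

end Fermat.Agent.LevelOne_helper63
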