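/-
helper63: zero sets of `E₄`, `E₆` and of `Δ(τ₀)·E₄³ - E₄(τ₀)³·Δ` are single `SL(2,ℤ)`-orbits.
-/
import Mathlib
import Fermat.Agent.LevelOne_helper63.JInjective

set_option autoImplicit false

open UpperHalfPlane ModularForm EisensteinSeries ModularGroup
open scoped MatrixGroups

namespace Fermat.Agent.LevelOne_helper63

/-- transformation law of a level-one modular form, pointwise. -/
lemma levelOne_smul {k : ℤ} (f : ModularForm 𝒮ℒ k) (γ : SL(2, ℤ)) (τ : ℍ) :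
    f (γ • τ) = denom γ τ ^ k * f τ := by
  have h : ((γ : GL (Fin 2) ℝ)) ∈ (𝒮ℒ : Subgroup (GL (Fin 2) ℝ)) := ⟨γ, rfl⟩
  exact SlashInvariantForm.slash_action_eqn'' f h τ

lemma E₄_smul (γ : SL(2, ℤ)) (τ : ℍ) : E₄ (γ • τ) = denom γ τ ^ (4 : ℤ) * E₄ τ :=
  levelOne_smul E₄ γ τ

lemma E₆_smul (γ : SL(2, ℤ)) (τ : ℍ) : E₆ (γ • τ) = denom γ τ ^ (6 : ℤ) * E₆ τ :=
  levelOne_smul E₆ γ τ

lemma discriminant_smul (γ : SL(2, ℤ)) (τ : ℍ) :
    discriminant (γ • τ) = denom γ τ ^ (12 : ℤ) * discriminant τ := by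
  have h : ((γ : GL (Fin 2) ℝ)) ∈ (𝒮ℒ : Subgroup (GL (Fin 2) ℝ)) := ⟨γ, rfl⟩
  exact SlashInvariantForm.slash_action_eqn'' CuspForm.discriminant h τ

lemma S_smul_I : S • I = I := by
  have := (stabilizer_I (g := S)).mpr (by simp)
  exact this

lemma ST_smul_ρ : (S * T) • ρ = ρ := by
  have := (stabilizer_ρ (g := S * T)).mpr (by simp)
  exact this

/-- `E₆(i) = 0`. -/
theorem E₆_I : E₆ I = 0 := by
  have h := E₆_smul S I
  rw [S_smul_I] at h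
  have hd : denom S I = (I : ℂ) := ModularGroup.denom_S I
  rw [hd] at h
  have h6 : ((I : ℍ) : ℂ) ^ (6 : ℤ) = -1 := by
    rw [coe_I]
    norm_cast
    rw [show (6 : ℕ) = 2 * 3 by norm_num, pow_mul, Complex.I_sq]
    norm_num
  rw [h6] at h
  have : 2 * E₆ I = 0 := by linear_combination h
  simpa using this

/-- `E₄(ρ) = 0`. -/
theorem E₄_ρ : E₄ ρ = 0 := by
  obtain ⟨γ, hγ⟩ : ∃ γ : SL(2, ℤ), γ = S * T := ⟨_, rfl⟩
  have h := E₄_smul γ ρ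
  rw [hγ, ST_smul_ρ, ← hγ] at h
  have hd : denom γ ρ = (ρ : ℂ) + 1 := by
    rw [ModularGroup.denom_apply]
    have h10 : γ 1 0 = 1 := by rw [hγ]; decide
    have h11 : γ 1 1 = 1 := by rw [hγ]; decide
    rw [h10, h11]
    push_cast
    ring
  rw [hd] at h
  have h4 : ((ρ : ℂ) + 1) ^ (4 : ℤ) = -(ρ : ℂ) - 1 := by
    norm_cast
    have h2 : ((ρ : ℂ) + 1) ^ 2 = ρ := by
      have := ρ_sq
      linear_combination this
    have : ((ρ : ℂ) + 1) ^ 4 = (((ρ : ℂ) + 1) ^ 2) ^ 2 := by ring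
    rw [this, h2, ρ_sq]
  rw [h4] at h
  have h3 : ((ρ : ℂ) + 2) * E₄ ρ = 0 := by linear_combination h
  rcases mul_eq_zero.mp h3 with h5 | h5
  · exfalso
    have := congrArg Complex.im h5
    simp [ρ] at this
  · exact h5

lemma E₄_ne_zero_of_E₆_eq_zero {τ : ℍ} (h : E₆ τ = 0) : E₄ τ ≠ 0 := by
  intro h4
  have := discriminant_ne_zero τ
  rw [discriminant_eq_E₄_cube_sub_E₆_sq, h, h4] at this
  simp at this

lemma E₆_ne_zero_of_E₄_eq_zero {τ : ℍ} (h : E₄ τ = 0) : E₆ τ ≠ 0 := by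
  intro h6
  have := discriminant_ne_zero τ
  rw [discriminant_eq_E₄_cube_sub_E₆_sq, h, h6] at this
  simp at this

/-- The zeros of `E₆` are exactly the `SL(2,ℤ)`-orbit of `i`. -/
theorem E₆_eq_zero_iff (τ : ℍ) : E₆ τ = 0 ↔ ∃ γ : SL(2, ℤ), τ = γ • I := by
  constructor
  · intro h
    have h4 := E₄_ne_zero_of_E₆_eq_zero h
    have h4I := E₄_ne_zero_of_E₆_eq_zero E₆_I
    obtain ⟨u, hu⟩ := IsAlgClosed.exists_pow_nat_eq (E₄ τ / E₄ I) (n := 4) (by norm_num)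
    have hu0 : u ≠ 0 := by
      intro h0
      rw [h0] at hu
      have : E₄ τ / E₄ I ≠ 0 := div_ne_zero h4 h4I
      exact this (by simpa using hu.symm)
    apply exists_smul_eq_of_E₄_E₆ I τ hu0
    · rw [hu]; field_simp
    · rw [h, E₆_I]; simp
  · rintro ⟨γ, rfl⟩
    rw [E₆_smul, E₆_I, mul_zero]

/-- The zeros of `E₄` are exactly the `SL(2,ℤ)`-orbit of `ρ`. -/
theorem E₄_eq_zero_iff (τ : ℍ) : E₄ τ = 0 ↔ ∃ γ : SL(2, ℤ), τ = γ • ρ := by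
  constructor
  · intro h
    have h6 := E₆_ne_zero_of_E₄_eq_zero h
    have h6ρ := E₆_ne_zero_of_E₄_eq_zero E₄_ρ
    obtain ⟨u, hu⟩ := IsAlgClosed.exists_pow_nat_eq (E₆ τ / E₆ ρ) (n := 6) (by norm_num)
    have hu0 : u ≠ 0 := by
      intro h0
      rw [h0] at hu
      have : E₆ τ / E₆ ρ ≠ 0 := div_ne_zero h6 h6ρ
      exact this (by simpa using hu.symm)
    apply exists_smul_eq_of_E₄_E₆ ρ τ hu0
    · rw [h, E₄_ρ]; simp
    · rw [hu]; field_simp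
  · rintro ⟨γ, rfl⟩
    rw [E₄_smul, E₄_ρ, mul_zero]

/-- The relation `j(τ) = j(τ₀)` (cleared of denominators) cuts out exactly the orbit of `τ₀`. -/
theorem jRel_iff (τ₀ τ : ℍ) :
    E₄ τ ^ 3 * discriminant τ₀ = E₄ τ₀ ^ 3 * discriminant τ ↔ ∃ γ : SL(2, ℤ), τ = γ • τ₀ := by
  constructor
  · intro h
    exact exists_smul_eq_of_j_eq τ₀ τ h.symm
  · rintro ⟨γ, rfl⟩
    rw [E₄_smul, discriminant_smul]
    have h4 : (denom γ τ₀ ^ (4 : ℤ)) ^ 3 = denom γ τ₀ ^ (12 : ℤ) := by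
      rw [← zpow_natCast, ← zpow_mul]; norm_num
    rw [mul_pow, h4]
    ring

/-- The weight-12 level-one form `Δ(τ₀)·E₄³ - E₄(τ₀)³·Δ`, as a function. Its zero set is the orbit
of `τ₀`. -/
noncomputable def jRel (τ₀ : ℍ) (τ : ℍ) : ℂ :=
  discriminant τ₀ * E₄ τ ^ 3 - E₄ τ₀ ^ 3 * discriminant τ

theorem jRel_eq_zero_iff (τ₀ τ : ℍ) : jRel τ₀ τ = 0 ↔ ∃ γ : SL(2, ℤ), τ = γ • τ₀ := by
  rw [← jRel_iff, jRel, sub_eq_zero, mul_comm]

end Fermat.Agent.LevelOne_helper63
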